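import Fermat.Agent.S19.C.Span
import Fermat.Agent.S19.B.Eval

/-!
# S19 / C4 : symmetric functions

`Rf : G → Div⁺(F)` equivariant, `u j` rational functions, regular with values in `A` at the points of
all `Rf y`, `a = ∑ α j u j` with `α j ∈ A`.  Then `y ↦ a(Rf y)` is in `intSpan A G`.

Proof: `Ψ y := ∏_{v ∈ Rf y} (∑ j, C (val v (u j)) * X j) ^ (Rf y v) : MvPolynomial (Fin n) ℚ̄`.
`Ψ (σ y) = map σ (Ψ y)` (because `val (σ v) (u j) = σ (val v (u j))`), the coefficients of `Ψ y` are
in `A`, so every coefficient function `y ↦ coeff d (Ψ y)` is equivariant and `A`-valued; and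
`a(Rf y) = eval α (Ψ y) = ∑_d coeff d (Ψ y) * α^d` (`MvPolynomial.eval_eq'`), a finite sum
(`d` in the union over `y : G` of the supports).
-/

set_option autoImplicit false

open AlgebraicCurve

namespace Fermat.Agent.S19

open Fermat.Agent.S27

section Aux

variable {K F : Type*} [Field K] [Field F] [Algebra K F]

/-- `∏_{v ∈ D} (∑ j, u j (v) X j) ^ (D v)` -/
noncomputable def symPoly {n : ℕ} (u : Fin n → F) (D : Divisor K F) : MvPolynomial (Fin n) K :=
  D.prod fun v m => (∑ j, MvPolynomial.C (val v (u j)) * MvPolynomial.X j) ^ m.toNat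

variable [IsAlgClosed K] [CharZero K] [IsFF K F]

/-- values of linear combinations of regular functions. -/
theorem val_sum_smul_of_reg {J : Type*} (s : Finset J) (v : Place K F) (c : J → K) (f : J → F)
    (hf : ∀ j ∈ s, v.adicValuation (f j) ≤ 1) :
    v.adicValuation (∑ j ∈ s, c j • f j) ≤ 1 ∧
      val v (∑ j ∈ s, c j • f j) = ∑ j ∈ s, c j * val v (f j) := by
  classical
  induction s using Finset.induction_on with
  | empty =>
    refine ⟨by simp, ?_⟩
    have := val_algebraMap v (0 : K)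
    simpa using this
  | insert a s ha ih =>
    obtain ⟨h1, h2⟩ := ih fun j hj => hf j (Finset.mem_insert_of_mem hj)
    have ha1 : v.adicValuation (f a) ≤ 1 := hf a (Finset.mem_insert_self a s)
    have h3 : v.adicValuation (c a • f a) ≤ 1 := by
      rw [Algebra.smul_def, map_mul]
      exact mul_le_one' (v.adicValuation_algebraMap_le_one _) ha1
    have h4 : val v (c a • f a) = c a * val v (f a) := by
      rw [Algebra.smul_def, val_mul v (v.adicValuation_algebraMap_le_one _) ha1, val_algebraMap]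
    rw [Finset.sum_insert ha, Finset.sum_insert ha]
    exact ⟨(Valuation.map_add _ _ _).trans (max_le h3 h1), by rw [val_add v h3 h1, h4, h2]⟩

theorem eval_symPoly {n : ℕ} (u : Fin n → F) {D : Divisor K F} (hD : 0 ≤ D)
    (hreg : ∀ v ∈ D.support, ∀ j, v.adicValuation (u j) ≤ 1) (α : Fin n → K) :
    MvPolynomial.eval α (symPoly u D) = evalDiv (∑ j, α j • u j) D := by
  unfold symPoly evalDiv
  rw [map_finsuppProd]
  refine Finsupp.prod_congr fun v hv => ?_
  have h1 := (val_sum_smul_of_reg Finset.univ v α u fun j _ => hreg v hv j).2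
  have h2 : 0 ≤ D v := hD v
  rw [h1, map_pow, map_sum]
  conv_rhs => rw [← Int.toNat_of_nonneg h2, zpow_natCast]
  congr 1
  refine Finset.sum_congr rfl fun j _ => ?_
  rw [map_mul, MvPolynomial.eval_C, MvPolynomial.eval_X, mul_comm]

theorem symPoly_smul {n : ℕ} (u : Fin n → F) (g : SemilinearAut K F) (hu : ∀ j, g • u j = u j)
    (D : Divisor K F) :
    symPoly u (g • D) =
      MvPolynomial.map (SemilinearAut.baseAut g : K →+* K) (symPoly u D) := by
  unfold symPoly
  rw [SemilinearAut.divisor_smul_def, Finsupp.prod_mapDomain_index_inj (MulAction.injective g),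
    map_finsuppProd]
  refine Finsupp.prod_congr fun v _ => ?_
  rw [map_pow, map_sum]
  congr 1
  refine Finset.sum_congr rfl fun j _ => ?_
  rw [map_mul, MvPolynomial.map_C, MvPolynomial.map_X]
  congr 2
  conv_lhs => rw [← hu j]
  exact val_smul g v (u j)

omit [IsAlgClosed K] [CharZero K] [IsFF K F] in
theorem coeff_symPoly_mem {n : ℕ} (u : Fin n → F) (A : Subring K) {D : Divisor K F}
    (hval : ∀ v ∈ D.support, ∀ j, val v (u j) ∈ A) (d : Fin n →₀ ℕ) :
    MvPolynomial.coeff d (symPoly u D) ∈ A := by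
  have h : symPoly u D ∈ (MvPolynomial.map (σ := Fin n) A.subtype).range := by
    unfold symPoly Finsupp.prod
    refine Subring.prod_mem _ fun v hv => Subring.pow_mem _ (Subring.sum_mem _ fun j _ => ?_) _
    exact ⟨MvPolynomial.C ⟨val v (u j), hval v hv j⟩ * MvPolynomial.X j, by
      rw [map_mul, MvPolynomial.map_C, MvPolynomial.map_X]; rfl⟩
  obtain ⟨P, hP⟩ := h
  rw [← hP, MvPolynomial.coeff_map]
  exact (MvPolynomial.coeff d P).2

end Aux

variable {A : ValuationSubring Qb} {F : Type} [Field F] [Algebra Qb F] [IsFF Qb F]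
  {gal : Gam →* SemilinearAut Qb F}

theorem evalDiv_family_mem_intSpan {G : Type*} [Finite G] [MulAction Gam G]
    (hbase : ∀ (σ : Gam) (a : Qb), SemilinearAut.baseAut (gal σ) a = σ a)
    (Rf : G → Divisor Qb F) (hRf : ∀ (σ : Gam) y, Rf (σ • y) = gal σ • Rf y) (hpos : ∀ y, 0 ≤ Rf y)
    {n : ℕ} (u : Fin n → F) (hu : ∀ (σ : Gam) j, gal σ • u j = u j)
    (hreg : ∀ y, ∀ v ∈ (Rf y).support, ∀ j, v.adicValuation (u j) ≤ 1)
    (hval : ∀ y, ∀ v ∈ (Rf y).support, ∀ j, val v (u j) ∈ A) (α : Fin n → A) :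
    (fun y => evalDiv (∑ j, ((α j : A) : Qb) • u j) (Rf y)) ∈ intSpan A G := by
  classical
  have := Fintype.ofFinite G
  set Ψ : G → MvPolynomial (Fin n) Qb := fun y => symPoly u (Rf y) with hΨ
  set Dd : Finset (Fin n →₀ ℕ) := Finset.univ.biUnion fun y => (Ψ y).support with hDd
  have key : (fun y => evalDiv (∑ j, ((α j : A) : Qb) • u j) (Rf y)) =
      ∑ d ∈ Dd, fun y => (∏ i, ((α i : A) : Qb) ^ d i) * MvPolynomial.coeff d (Ψ y) := by
    funext y
    rw [← eval_symPoly u (hpos y) (hreg y), MvPolynomial.eval_eq', Finset.sum_apply]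
    refine (Finset.sum_subset (Finset.subset_biUnion_of_mem (fun y => (Ψ y).support)
      (Finset.mem_univ y)) fun d _ hd => ?_).trans (Finset.sum_congr rfl fun d _ => mul_comm _ _)
    rw [MvPolynomial.notMem_support_iff.1 hd, zero_mul]
  rw [key]
  refine sum_mem_intSpan _ _ fun d _ => smul_mem_intSpan ?_ (mem_intSpan_of_isEqv ?_ ?_)
  · exact Subring.prod_mem A.toSubring fun i _ => Subring.pow_mem _ (α i).2 _
  · intro σ y
    change MvPolynomial.coeff d (symPoly u (Rf (σ • y))) = _
    rw [hRf, symPoly_smul u (gal σ) (hu σ), MvPolynomial.coeff_map]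
    exact hbase σ _
  · intro y
    exact coeff_symPoly_mem u A.toSubring (hval y) d

end Fermat.Agent.S19
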