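import Fermat.Agent.S19.C.Family
import Fermat.Agent.S19.C.Sym

/-!
# S19 / C7 : `y ↦ e_m(x, y)` lies in `intSpan A G`  (interface of part C)

`(Rf, ff)` := `P.exists_family`.  `S := r (⋃_y supp (Rf y) ∪ {Pinf})`.  `E := P.ratE S (max c₀ 1)`.
`D⁺ := P.exists_rep_off x S`, `D_x = D⁺ - E`.  `f_x` with `div f_x = m D_x`, scaled
(`R.exists_scale`) so that `f_x ∈ O`, `red f_x ≠ 0`.  `f_x ∈ L(m E)`, `m E` rational:
`f_x = ∑ α j u j` (`P.on`).  By (P1) `div (red f_x) = m r_*(D⁺ - E)` has coefficient `0` on `S`.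
* `t₁ y = f_x(Rf y)`, `t₂ y = f_x(deg (Rf y) Pinf)` are in `intSpan` (`evalDiv_family_mem_intSpan`,
  `P.val_mem`) and unit valued (`P.val_inv_mem`).
* `t₃ y = (ff y)(D_x) = ∏_v (val v (ff y)) ^ (D_x v)`; each `y ↦ val v (ff y)` is in `intSpan`
  (`r v ∉ S`) and unit valued (`P.val_inv_mem` for `ff y ∈ L(N Pinf)`, `div (red (ff y))` supported
  in `S` by (P1)).
* `weil m x (ι y) = t₁ y / t₂ y / t₃ y` by `IsWeil.weil_eq`; conclude with `div_mem_intSpan`.
-/

set_option autoImplicit false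
set_option linter.unusedVariables false

open AlgebraicCurve

namespace Fermat.Agent.S19

open Fermat.Agent.S27 Fermat.Agent.RED

section Aux

variable {A : ValuationSubring Qb}

theorem valuation_eq_one_of_unit {c : Qb} (h0 : c ≠ 0) (h1 : c ∈ A) (h2 : c⁻¹ ∈ A) :
    A.valuation c = 1 := by
  apply le_antisymm ((A.valuation_le_one_iff c).2 h1)
  have h3 := (A.valuation_le_one_iff c⁻¹).2 h2
  rw [map_inv₀] at h3
  have hv : A.valuation c ≠ 0 := (Valuation.ne_zero_iff _).2 h0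
  exact (inv_le_one₀ (zero_lt_iff.2 hv)).1 h3

theorem unit_of_valuation_eq_one {c : Qb} (h : A.valuation c = 1) : c ≠ 0 ∧ c⁻¹ ∈ A := by
  refine ⟨?_, ?_⟩
  · rintro rfl
    rw [map_zero] at h
    exact zero_ne_one h
  · rw [← A.valuation_le_one_iff, map_inv₀, h, inv_one]

variable {F : Type} [Field F] [Algebra Qb F]

theorem valuation_evalDiv_eq_one {f : F} {D : Divisor Qb F}
    (h : ∀ v ∈ D.support, A.valuation (val v f) = 1) : A.valuation (evalDiv f D) = 1 := by
  unfold evalDiv Finsupp.prod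
  rw [map_prod]
  exact Finset.prod_eq_one fun v hv => by rw [map_zpow₀, h v hv, one_zpow]

theorem degree_nonneg_of_nonneg {D : Divisor Qb F} (h : 0 ≤ D) : 0 ≤ Divisor.degree D := by
  conv_rhs => rw [← Finsupp.sum_single D]
  rw [Finsupp.sum, map_sum]
  exact Finset.sum_nonneg fun v _ => by
    rw [Divisor.degree_single]
    exact mul_nonneg (h v) (Nat.cast_nonneg _)

theorem mapDomain_apply_eq_zero_of_forall_ne {X Y : Type*} {D : X →₀ ℤ} {r : X → Y} {Q : Y}
    (h : ∀ v ∈ D.support, r v ≠ Q) : (D.mapDomain r) Q = 0 := by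
  classical
  by_contra hne
  have h1 := Finsupp.mapDomain_support (Finsupp.mem_support_iff.2 hne)
  obtain ⟨v, hv, rfl⟩ := Finset.mem_image.1 h1
  exact h v hv rfl

end Aux

variable {ℓ : ℕ} [Fact ℓ.Prime] {A : ValuationSubring Qb} {F : Type} [Field F] [Algebra Qb F]
  [IsFF Qb F] {gal : Gam →* SemilinearAut Qb F} {k Fb : Type} [Field k] [Field Fb] [Algebra k Fb]

omit [Fact ℓ.Prime] in
/-- a function of `O ∩ L(E)` with non zero reduction takes unit values at the places `v` whose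
reduction avoids the reductions of `supp E` and of `supp (div a)` -/
theorem RedPkg.valuation_val_eq_one (P : RedPkg A F gal k Fb) {a : F} (ha : a ∈ P.R.O)
    (hred : P.R.red ⟨a, ha⟩ ≠ 0) {E : Divisor Qb F} (hE : 0 ≤ E) (haE : a ∈ LS E)
    {v : Place Qb F} (hv : ∀ w ∈ E.support, P.r w ≠ P.r v)
    (hv' : ∀ w ∈ (divOf (K := Qb) a).support, P.r w ≠ P.r v) : A.valuation (val v a) = 1 := by
  have hord : (P.r v).ord (P.R.red ⟨a, ha⟩) = 0 := by
    rw [← P.P1 ⟨a, ha⟩ hred (divOf (K := Qb) a) (fun w => divOf_apply a w) (P.r v)]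
    exact mapDomain_apply_eq_zero_of_forall_ne hv'
  obtain ⟨h0, h2⟩ := P.val_inv_mem ha hE haE hv hred hord
  exact valuation_eq_one_of_unit h0 (P.val_mem ha hE haE hv) h2

theorem weil_mem_intSpan (P : RedPkg A F gal k Fb) (hA : A.LiesOverPrime ℓ) {G : Type*} [Finite G]
    [MulAction Gam G] (ι : G → Pic0 Qb F) (hι : ∀ (σ : Gam) y, ι (σ • y) = gal σ • ι y) {m : ℕ}
    (hm0 : 0 < m) (hm : ∀ y, m • ι y = 0) (x : Pic0 Qb F) (hx : m • x = 0) :
    (fun y => weil m x (ι y)) ∈ intSpan A G := by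
  classical
  have := Fintype.ofFinite G
  obtain ⟨Rf, ff, hpos, heq, hbcl, hff0, hdiv, hffO, hvalspan⟩ := P.exists_family hA ι hι hm
  set T : Finset (Place Qb F) := (Finset.univ.biUnion fun y => (Rf y).support) ∪ {P.Pinf} with hT
  set S : Finset (Place k Fb) := T.image P.r with hS
  have hSRf : ∀ y, ∀ v ∈ (Rf y).support, P.r v ∈ S := fun y v hv =>
    Finset.mem_image_of_mem _ (Finset.mem_union_left _
      (Finset.mem_biUnion.2 ⟨y, Finset.mem_univ y, hv⟩))
  have hSinf : P.r P.Pinf ∈ S :=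
    Finset.mem_image_of_mem _ (Finset.mem_union_right _ (Finset.mem_singleton_self _))
  -- the divisor at infinity
  set Rf' : G → Divisor Qb F := fun y => Divisor.degree (Rf y) • Finsupp.single P.Pinf 1 with hRf'
  have hSRf' : ∀ y, ∀ v ∈ (Rf' y).support, P.r v ∈ S := by
    intro y v hv
    have h1 := Finsupp.support_single_subset (Finsupp.support_smul hv)
    rw [Finset.mem_singleton] at h1
    rw [h1]
    exact hSinf
  have hdeg : ∀ y, 0 ≤ Divisor.degree (Rf y) := fun y => degree_nonneg_of_nonneg (hpos y)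
  have hpos' : ∀ y, 0 ≤ Rf' y := fun y =>
    smul_nonneg (hdeg y) (Finsupp.single_nonneg.2 zero_le_one)
  have hSE : ∀ y, ∀ v ∈ (Rf y - Rf' y).support, P.r v ∈ S := by
    intro y v hv
    rcases Finset.mem_union.1 (Finsupp.support_sub hv) with h | h
    · exact hSRf y v h
    · exact hSRf' y v h
  -- the rational divisor `E` and the representative of `x`
  obtain ⟨E, hE0, hEdeg, hEgal, hES⟩ := P.ratE S (max P.c₀ 1)
  obtain ⟨Dp, hDp0, hDpdeg, hDpx, hDpS⟩ := P.exists_rep_off x S ((le_max_left _ _).trans hEdeg)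
  have hDx0 : Divisor.degree (Dp - E) = 0 := by rw [map_sub, hDpdeg, sub_self]
  have hDxS : ∀ v ∈ (Dp - E).support, P.r v ∉ S := by
    intro v hv
    rcases Finset.mem_union.1 (Finsupp.support_sub hv) with h | h
    · exact hDpS v h
    · exact hES v h
  obtain ⟨f₀, hf₀, hf₀D⟩ := wp_exists_fn hDx0 (by rw [hDpx]; exact hx)
  obtain ⟨c, hcO, hcred⟩ := P.R.exists_scale f₀ hf₀
  have hc0 : c ≠ 0 := by
    rintro rfl
    apply hcred
    have : (⟨algebraMap Qb F 0 * f₀, hcO⟩ : P.R.O) = 0 := Subtype.ext (by simp)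
    rw [this, map_zero]
  set f : F := algebraMap Qb F c * f₀ with hf
  have hf0 : f ≠ 0 := mul_ne_zero (by simpa using hc0) hf₀
  have hfD : divOf (K := Qb) f = m • (Dp - E) := by
    rw [hf, divOf_mul (by simpa using hc0) hf₀, divOf_algebraMap, zero_add, hf₀D]
  have hmE0 : 0 ≤ m • E := smul_nonneg (Nat.zero_le m) hE0
  have hfLS : f ∈ LS (m • E) := by
    rw [mem_LS_of_ne_zero hf0]
    intro w
    rw [← divOf_apply (K := Qb) f w, hfD, smul_sub, Finsupp.sub_apply]
    have : 0 ≤ (m • Dp) w := (smul_nonneg (Nat.zero_le m) hDp0 : 0 ≤ m • Dp) w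
    linarith
  have hmES : ∀ w ∈ (m • E).support, P.r w ∉ S := fun w hw => hES w (wp_support_nsmul m E hw)
  have hfDS : ∀ w ∈ (divOf (K := Qb) f).support, P.r w ∉ S := by
    intro w hw
    rw [hfD] at hw
    exact hDxS w (wp_support_nsmul m _ hw)
  obtain ⟨n, u, hu1, hu2, hu3, -, hon⟩ := P.on (m • E) (fun σ => by rw [smul_comm, hEgal])
  obtain ⟨α, hα⟩ := hon f hfLS hcO
  -- values of `f` at the places over `S`
  have hfunit : ∀ v, P.r v ∈ S → A.valuation (val v f) = 1 := fun v hv =>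
    P.valuation_val_eq_one hcO hcred hmE0 hfLS
      (fun w hw h => hmES w hw (h ▸ hv)) (fun w hw h => hfDS w hw (h ▸ hv))
  have hureg : ∀ v, P.r v ∈ S → ∀ j, v.adicValuation (u j) ≤ 1 := fun v hv j =>
    adic_le_one_of_mem_LS (hu1 j) (fun hw => hmES v hw hv)
  have huval : ∀ v, P.r v ∈ S → ∀ j, val v (u j) ∈ A := fun v hv j =>
    P.val_mem (hu2 j) hmE0 (hu1 j) (fun w hw h => hmES w hw (h ▸ hv))
  have ht₁ : (fun y => evalDiv f (Rf y)) ∈ intSpan A G := by
    rw [hα]
    exact evalDiv_family_mem_intSpan P.baseAut_gal Rf heq hpos u hu3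
      (fun y v hv => hureg v (hSRf y v hv)) (fun y v hv => huval v (hSRf y v hv)) α
  have heq' : ∀ (σ : Gam) y, Rf' (σ • y) = gal σ • Rf' y := by
    intro σ y
    simp only [hRf']
    rw [heq, SemilinearAut.degree_smul, smul_comm, SemilinearAut.smul_single, P.gal_Pinf]
  have ht₂ : (fun y => evalDiv f (Rf' y)) ∈ intSpan A G := by
    rw [hα]
    exact evalDiv_family_mem_intSpan P.baseAut_gal Rf' heq' hpos' u hu3
      (fun y v hv => hureg v (hSRf' y v hv)) (fun y v hv => huval v (hSRf' y v hv)) α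
  have hu₂ : ∀ y, evalDiv f (Rf' y) ≠ 0 ∧ (evalDiv f (Rf' y))⁻¹ ∈ A := fun y =>
    unit_of_valuation_eq_one (valuation_evalDiv_eq_one fun v hv => hfunit v (hSRf' y v hv))
  -- values of `ff y` at the places outside `S`
  have hffunit : ∀ y v, P.r v ∉ S → A.valuation (val v (ff y)) = 1 := by
    intro y v hv
    obtain ⟨hO, hred⟩ := hffO y
    have hEN0 : 0 ≤ m • Rf' y := smul_nonneg (Nat.zero_le m) (hpos' y)
    refine P.valuation_val_eq_one hO hred hEN0 ?_ ?_ ?_
    · rw [mem_LS_of_ne_zero (hff0 y)]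
      intro w
      rw [← divOf_apply (K := Qb) (ff y) w, hdiv, smul_sub, Finsupp.sub_apply]
      have : 0 ≤ (m • Rf y) w := (smul_nonneg (Nat.zero_le m) (hpos y) : 0 ≤ m • Rf y) w
      linarith
    · intro w hw h
      exact hv (h ▸ hSRf' y w (wp_support_nsmul m _ hw))
    · intro w hw h
      rw [hdiv] at hw
      exact hv (h ▸ hSE y w (wp_support_nsmul m _ hw))
  have ht₃ : (fun y => evalDiv (ff y) (Dp - E)) ∈ intSpan A G := by
    have e : (fun y => evalDiv (ff y) (Dp - E)) =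
        ∏ v ∈ (Dp - E).support, fun y => val v (ff y) ^ (Dp - E) v := by
      funext y
      rw [Finset.prod_apply]
      rfl
    rw [e]
    refine prod_mem_intSpan _ _ fun v hv => zpow_mem_intSpan
      (hvalspan v fun h => hDxS v hv (h ▸ hSinf))
      (fun y => unit_of_valuation_eq_one (hffunit y v (hDxS v hv))) _
  have hu₃ : ∀ y, evalDiv (ff y) (Dp - E) ≠ 0 ∧ (evalDiv (ff y) (Dp - E))⁻¹ ∈ A := fun y =>
    unit_of_valuation_eq_one (valuation_evalDiv_eq_one fun v hv => hffunit y v (hDxS v hv))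
  -- the formula for the pairing
  have hdisj : ∀ D' : Divisor Qb F, (∀ v ∈ D'.support, P.r v ∈ S) →
      Disjoint (Dp - E).support D'.support := by
    intro D' hD'
    rw [Finset.disjoint_left]
    intro v hv hv'
    exact hDxS v hv (hD' v hv')
  have key : (fun y => weil m x (ι y)) =
      fun y => (evalDiv f (Rf y) / evalDiv f (Rf' y)) / evalDiv (ff y) (Dp - E) := by
    funext y
    have hW : IsWeil m x (ι y) (evalDiv f (Rf y - Rf' y) / evalDiv (ff y) (Dp - E)) :=
      ⟨Dp - E, Rf y - Rf' y, f, ff y, hDx0, degree_sub_smul P.Pinf (Rf y), hDpx, hbcl y,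
        hdisj _ (hSE y), hf0, hff0 y, hfD, hdiv y, rfl⟩
    rw [hW.weil_eq, evalDiv_sub (wp_unitOn hf0 hfD (hdisj _ (hSRf y)))
      (wp_unitOn hf0 hfD (hdisj _ (hSRf' y)))]
  rw [key]
  exact div_mem_intSpan (div_mem_intSpan ht₁ ht₂ hu₂) ht₃ hu₃

end Fermat.Agent.S19
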