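import Fermat.Agent.S19.C.Defs

/-!
# S19 / C1, C2 : evaluation and reduction; moving a class off a finite set of reduced places

`val_mem`: let `c = val v a`.  If `c ∉ A` then `c⁻¹` is a non unit of `A`, `x' = c⁻¹ a - 1 ∈ O` has
reduction `-1`, so `r_* div x' = 0` (P1); but `x'` vanishes at `v` and its poles are in `supp E`, which
does not meet the fibre of `r` through `v`: the coefficient of `r_* div x'` at `r v` is `≥ 1`.
`val_inv_mem`: same argument with `a - c` if `c` is a non unit of `A` (`red (a - c) = red a`).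
`exists_rep_off`: `D₀ ∈ x`; a generic section `x₁` of `L(D₀ + E)`; `D = D₀ + E + div x₁`.
-/

set_option autoImplicit false

open AlgebraicCurve

namespace Fermat.Agent.S19

open Fermat.Agent.S27 Fermat.Agent.RED

/-- the coefficients of a push-forward. -/
theorem mapDomain_apply_eq_sum {α β : Type*} [DecidableEq β] (r : α → β) (D : α →₀ ℤ) (Q : β) :
    (D.mapDomain r) Q = ∑ w ∈ D.support, if r w = Q then D w else 0 := by
  rw [Finsupp.mapDomain, Finsupp.sum_apply, Finsupp.sum]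
  refine Finset.sum_congr rfl fun w _ => ?_
  rw [Finsupp.single_apply]

/-- a push-forward of a divisor which is `≥ 0` on the fibre and `> 0` at a point of the fibre. -/
theorem mapDomain_apply_pos {α β : Type*} (r : α → β) (D : α →₀ ℤ) (v : α)
    (h0 : ∀ w, r w = r v → 0 ≤ D w) (hv : 0 < D v) : 0 < (D.mapDomain r) (r v) := by
  classical
  rw [mapDomain_apply_eq_sum]
  refine Finset.sum_pos' (fun w _ => ?_) ⟨v, Finsupp.mem_support_iff.mpr hv.ne', ?_⟩
  · split_ifs with h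
    · exact h0 w h
    · exact le_rfl
  · rwa [if_pos rfl]

variable {A : ValuationSubring Qb} {F : Type} [Field F] [Algebra Qb F] [IsFF Qb F]
  {gal : Gam →* SemilinearAut Qb F} {k Fb : Type} [Field k] [Field Fb] [Algebra k Fb]
  (P : RedPkg A F gal k Fb)

omit [IsFF Qb F] in
theorem adic_le_one_of_mem_LS {a : F} {E : Divisor Qb F} (haE : a ∈ LS E) {v : Place Qb F}
    (hv : v ∉ E.support) : v.adicValuation a ≤ 1 := by
  rw [v.adicValuation_le_one_iff]
  rcases haE with h | h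
  · exact Or.inl h
  · right
    have := h v
    rwa [Finsupp.notMem_support_iff.mp hv, neg_zero] at this

omit [IsFF Qb F] in
/-- non units of `A` reduce to `0`. -/
theorem RedPkg.red_const_eq_zero {c : Qb} (hc : c ∈ A) (hc' : c = 0 ∨ c⁻¹ ∉ A) :
    P.R.red ⟨algebraMap Qb F c, (P.mem_O_iff c).2 hc⟩ = 0 := by
  by_contra hne
  have h1 := P.R.inv_mem_of_red_ne_zero hne
  rcases hc' with rfl | hc'
  · apply hne
    have : (⟨algebraMap Qb F 0, (P.mem_O_iff 0).2 hc⟩ : P.R.O) = 0 := Subtype.ext (map_zero _)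
    rw [this, map_zero]
  · apply hc'
    rw [← P.mem_O_iff, map_inv₀]
    exact h1

/-- the common part of C1 and C1'. -/
theorem RedPkg.ord_red_pos {x : F} (hx : x ∈ P.R.O) (hred : P.R.red ⟨x, hx⟩ ≠ 0)
    {E : Divisor Qb F} (hxE : x ∈ LS E) {v : Place Qb F}
    (hv : ∀ w ∈ E.support, P.r w ≠ P.r v) (hvx : v.adicValuation x < 1) :
    0 < (P.r v).ord (P.R.red ⟨x, hx⟩) := by
  have hx0 : x ≠ 0 := by
    rintro rfl
    apply hred
    have : (⟨0, hx⟩ : P.R.O) = 0 := rfl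
    rw [this, map_zero]
  rw [← P.P1 ⟨x, hx⟩ hred (divOf x) (fun w => divOf_apply x w) (P.r v)]
  refine mapDomain_apply_pos P.r _ v (fun w hw => ?_) ?_
  · rw [divOf_apply]
    have hwE : w ∉ E.support := fun h => hv w h hw
    exact ((w.adicValuation_le_one_iff).mp (adic_le_one_of_mem_LS hxE hwE)).resolve_left hx0
  · rw [divOf_apply]
    exact ((adic_lt_one_iff_ord v).mp hvx).resolve_left hx0

omit [IsFF Qb F] in
theorem one_mem_LS {E : Divisor Qb F} (hE : 0 ≤ E) : (1 : F) ∈ LS E := by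
  refine Or.inr fun v => ?_
  rw [Place.ord_one]
  have : 0 ≤ E v := hE v
  omega

/-- **C1.** -/
theorem RedPkg.val_mem {a : F} (ha : a ∈ P.R.O) {E : Divisor Qb F} (hE : 0 ≤ E) (haE : a ∈ LS E)
    {v : Place Qb F} (hv : ∀ w ∈ E.support, P.r w ≠ P.r v) : val v a ∈ A := by
  by_contra hc
  set c := val v a with hcdef
  have hvE : v ∉ E.support := fun h => hv v h rfl
  have hreg := adic_le_one_of_mem_LS haE hvE
  have hspec := val_spec v hreg
  rw [← hcdef] at hspec
  have hc0 : c ≠ 0 := fun h => hc (h ▸ A.zero_mem)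
  have hcinv : c⁻¹ ∈ A := (A.mem_or_inv_mem c).resolve_left hc
  have hred0 := P.red_const_eq_zero hcinv (Or.inr (by rwa [inv_inv]))
  have hx : algebraMap Qb F c⁻¹ * a - 1 ∈ P.R.O :=
    P.R.O.sub_mem (P.R.O.mul_mem _ _ ((P.mem_O_iff _).2 hcinv) ha) P.R.O.one_mem
  have hredx : P.R.red ⟨algebraMap Qb F c⁻¹ * a - 1, hx⟩ = -1 := by
    have : (⟨algebraMap Qb F c⁻¹ * a - 1, hx⟩ : P.R.O) =
        ⟨algebraMap Qb F c⁻¹, (P.mem_O_iff _).2 hcinv⟩ * ⟨a, ha⟩ - 1 := rfl
    rw [this, map_sub, map_mul, hred0, zero_mul, map_one, zero_sub]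
  have hxE : algebraMap Qb F c⁻¹ * a - 1 ∈ LS E := by
    rw [← Algebra.smul_def]
    exact (LS E).sub_mem ((LS E).smul_mem _ haE) (one_mem_LS hE)
  have hvx : v.adicValuation (algebraMap Qb F c⁻¹ * a - 1) < 1 := by
    have : algebraMap Qb F c⁻¹ * a - 1 = algebraMap Qb F c⁻¹ * (a - algebraMap Qb F c) := by
      rw [mul_sub, ← map_mul, inv_mul_cancel₀ hc0, map_one]
    rw [this, map_mul, adic_algebraMap v (inv_ne_zero hc0), one_mul]
    exact hspec
  have hpos := P.ord_red_pos hx (by rw [hredx]; exact neg_ne_zero.mpr one_ne_zero) hxE hv hvx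
  rw [hredx] at hpos
  have h1 : (P.r v).ord (-1 : Fb) = 0 := by
    have := S24.Place.ord_algebraMap (P.r v) (-1 : k)
    rwa [map_neg, map_one] at this
  rw [h1] at hpos
  exact lt_irrefl _ hpos

/-- **C1'.** -/
theorem RedPkg.val_inv_mem {a : F} (ha : a ∈ P.R.O) {E : Divisor Qb F} (hE : 0 ≤ E)
    (haE : a ∈ LS E) {v : Place Qb F} (hv : ∀ w ∈ E.support, P.r w ≠ P.r v)
    (hred : P.R.red ⟨a, ha⟩ ≠ 0) (hord : (P.r v).ord (P.R.red ⟨a, ha⟩) = 0) :
    val v a ≠ 0 ∧ (val v a)⁻¹ ∈ A := by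
  have hcA := P.val_mem ha hE haE hv
  set c := val v a with hcdef
  by_contra hcon
  have hc' : c = 0 ∨ c⁻¹ ∉ A := by
    by_cases h0 : c = 0
    · exact Or.inl h0
    · right
      intro h
      exact hcon ⟨h0, h⟩
  have hvE : v ∉ E.support := fun h => hv v h rfl
  have hreg := adic_le_one_of_mem_LS haE hvE
  have hspec := val_spec v hreg
  rw [← hcdef] at hspec
  have hred0 := P.red_const_eq_zero hcA hc'
  have hx : a - algebraMap Qb F c ∈ P.R.O := P.R.O.sub_mem ha ((P.mem_O_iff _).2 hcA)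
  have hredx : P.R.red ⟨a - algebraMap Qb F c, hx⟩ = P.R.red ⟨a, ha⟩ := by
    have : (⟨a - algebraMap Qb F c, hx⟩ : P.R.O) =
        ⟨a, ha⟩ - ⟨algebraMap Qb F c, (P.mem_O_iff _).2 hcA⟩ := rfl
    rw [this, map_sub, hred0, sub_zero]
  have hxE : a - algebraMap Qb F c ∈ LS E := by
    have h1 : algebraMap Qb F c = c • (1 : F) := by rw [Algebra.smul_def, mul_one]
    rw [h1]
    exact (LS E).sub_mem haE ((LS E).smul_mem _ (one_mem_LS hE))
  have hpos := P.ord_red_pos hx (by rw [hredx]; exact hred) hxE hv hspec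
  rw [hredx, hord] at hpos
  exact lt_irrefl _ hpos

/-- **C2.** -/
theorem RedPkg.exists_rep_off (x : Pic0 Qb F) (S : Finset (Place k Fb)) {E : Divisor Qb F}
    (hE : P.c₀ ≤ Divisor.degree E) :
    ∃ D : Divisor Qb F, 0 ≤ D ∧ Divisor.degree D = Divisor.degree E ∧ dcl (D - E) = x ∧
      ∀ v ∈ D.support, P.r v ∉ S := by
  obtain ⟨D₀, hD₀, rfl⟩ := dcl_surjective x
  have hdeg1 : Divisor.degree (D₀ + E) = Divisor.degree E := by rw [map_add, hD₀, zero_add]
  obtain ⟨x₁, hx₁L, hx₁red, hx₁S⟩ := P.generic (D₀ + E) (by rw [hdeg1]; exact hE) S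
  have hx0 : (x₁ : F) ≠ 0 := by
    intro h
    apply hx₁red
    have : x₁ = 0 := Subtype.ext h
    rw [this, map_zero]
  have hdiv : Divisor.degree (divOf (K := Qb) (x₁ : F)) = 0 := degree_divOf hx0
  have hDnn : 0 ≤ D₀ + E + divOf (x₁ : F) := by
    intro v
    have := (hx₁L.resolve_left hx0) v
    rw [Finsupp.add_apply, divOf_apply, Finsupp.zero_apply]
    omega
  refine ⟨D₀ + E + divOf (x₁ : F), hDnn, by rw [map_add, hdeg1, hdiv, add_zero], ?_, ?_⟩
  · have : D₀ + E + divOf (x₁ : F) - E = D₀ + divOf (x₁ : F) := by abel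
    rw [this, dcl_add hD₀ hdiv,
      (dcl_eq_zero_iff hdiv).mpr (mem_principal_iff.mpr ⟨_, hx0, rfl⟩), add_zero]
  · intro v hv hvS
    have h1 := P.P1 x₁ hx₁red (divOf (x₁ : F)) (fun w => divOf_apply _ w) (P.r v)
    have h2 := hx₁S _ hvS
    have h3 : ((D₀ + E + divOf (x₁ : F)).mapDomain P.r) (P.r v) = 0 := by
      rw [Finsupp.mapDomain_add, Finsupp.add_apply, h1, h2, add_neg_cancel]
    have h4 := mapDomain_apply_pos P.r (D₀ + E + divOf (x₁ : F)) v (fun w _ => hDnn w)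
      (lt_of_le_of_ne (hDnn v) (Finsupp.mem_support_iff.mp hv).symm)
    rw [h3] at h4
    exact lt_irrefl _ h4

omit [IsFF Qb F] in
/-- orthonormality, second half: a combination with coefficients in `A`, one of them a unit, has
non zero reduction (`exists_scale` + the last clause of `on`). -/
theorem RedPkg.red_ne_zero_of_unit_coeff {E : Divisor Qb F} {n : ℕ} {u : Fin n → F}
    (hu1 : ∀ j, u j ∈ LS E) (hu2 : ∀ j, u j ∈ P.R.O) (hli : LinearIndependent Qb u)
    (hon : ∀ a ∈ LS E, a ∈ P.R.O → ∃ α : Fin n → A, a = ∑ j, ((α j : A) : Qb) • u j)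
    (α : Fin n → Qb) (hα : ∀ j, α j ∈ A) (j₀ : Fin n) (hj₀ : α j₀ ≠ 0 ∧ (α j₀)⁻¹ ∈ A) :
    ∃ h : (∑ j, α j • u j) ∈ P.R.O, P.R.red ⟨∑ j, α j • u j, h⟩ ≠ 0 := by
  have hmem : (∑ j, α j • u j) ∈ P.R.O := by
    refine Subring.sum_mem P.R.O.toSubring fun j _ => ?_
    rw [Algebra.smul_def]
    exact P.R.O.mul_mem _ _ ((P.mem_O_iff _).2 (hα j)) (hu2 j)
  refine ⟨hmem, ?_⟩
  set f := ∑ j, α j • u j with hf
  have hfL : f ∈ LS E := (LS E).sum_mem fun j _ => (LS E).smul_mem _ (hu1 j)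
  have hf0 : f ≠ 0 := by
    intro h0
    have := (Fintype.linearIndependent_iff.mp hli) α h0 j₀
    exact hj₀.1 this
  obtain ⟨c, hc, hcred⟩ := P.R.exists_scale f hf0
  obtain ⟨β, hβ⟩ := hon (algebraMap Qb F c * f) (by
    rw [← Algebra.smul_def]; exact (LS E).smul_mem _ hfL) hc
  have hcoef : ∀ j, c * α j = ((β j : A) : Qb) := by
    have h1 : ∑ j, (c * α j - ((β j : A) : Qb)) • u j = 0 := by
      simp only [sub_smul, Finset.sum_sub_distrib, mul_smul]
      rw [← Finset.smul_sum, ← hf, ← hβ, Algebra.smul_def, sub_self]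
    intro j
    exact sub_eq_zero.mp ((Fintype.linearIndependent_iff.mp hli) _ h1 j)
  have hcA : c ∈ A := by
    have : c = ((β j₀ : A) : Qb) * (α j₀)⁻¹ := by
      rw [← hcoef j₀, mul_assoc, mul_inv_cancel₀ hj₀.1, mul_one]
    rw [this]
    exact A.mul_mem _ _ (β j₀).2 hj₀.2
  intro h0
  apply hcred
  have : (⟨algebraMap Qb F c * f, hc⟩ : P.R.O) =
      ⟨algebraMap Qb F c, (P.mem_O_iff _).2 hcA⟩ * ⟨f, hmem⟩ := rfl
  rw [this, map_mul, h0, mul_zero]

end Fermat.Agent.S19
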