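import Fermat.Agent.S19.A.Rl

/-!
# S19 / C5 : equivariant scaling

`exists_gen_of_finite`: `M = ℚ(a j)` is a number field, `R_M` = integral closure of `ℤ_(ℓ)` in `M` is a
Dedekind domain with finitely many primes (all contain `ℓ`), so it is a PID
(`IsPrincipalIdealRing.of_finite_primes`); the fractional ideal generated by the `a j` is `c R_M`.
`R_M ⊆ σ⁻¹ A` for all `σ` (valuation rings are integrally closed), so `σ (a j / c) ∈ A`; and
`1 = ∑ r j (a j / c)` with `r j ∈ R_M` shows that some `σ (a j / c)` is a unit of `A`.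
`exists_equivariant_scale`: choose orbit representatives `y₀`, `c₀ = c(y₀) ∈ ℚ(lam j y₀)`, which is
fixed by the stabiliser of `y₀`; put `c (σ y₀) = σ c₀`.
-/

set_option autoImplicit false

namespace Fermat.Agent.S19

local instance isAlgebraicQb_scale : Algebra.IsAlgebraic ℚ (AlgebraicClosure ℚ) :=
  AlgebraicClosure.isAlgebraic ℚ

section
variable (ℓ : ℕ)

theorem isFractionRing_Rl : IsFractionRing (Rl ℓ) ℚ := by
  refine IsFractionRing.of_field _ _ fun z => ?_
  obtain ⟨s, hs, r, h⟩ := exists_Rl_mul_eq ℓ z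
  refine ⟨r, s, ?_⟩
  have hs' : (s : ℚ) ≠ 0 := fun h0 => hs (Subtype.ext h0)
  show z = (r : ℚ) / (s : ℚ)
  rw [← h]
  field_simp

variable [Fact ℓ.Prime]

theorem isPrincipalIdealRing_integralClosure_Rl (M : IntermediateField ℚ Qb)
    [FiniteDimensional ℚ M] : IsPrincipalIdealRing (integralClosure (Rl ℓ) M) := by
  have := isDiscreteValuationRing_Rl ℓ
  have := isFractionRing_Rl ℓ
  have : IsDedekindDomain (integralClosure (Rl ℓ) M) :=
    integralClosure.isDedekindDomain (Rl ℓ) ℚ M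
  have hinj : Function.Injective (algebraMap (Rl ℓ) M) := by
    intro x y hxy
    have h1 : (algebraMap ℚ M) (x : ℚ) = (algebraMap ℚ M) (y : ℚ) := hxy
    exact Subtype.ext ((algebraMap ℚ M).injective h1)
  have : Module.IsTorsionFree (Rl ℓ) M := Module.isTorsionFree_iff_algebraMap_injective.2 hinj
  have : Module.IsTorsionFree (Rl ℓ) (integralClosure (Rl ℓ) M) :=
    Subalgebra.instIsTorsionFree _
  apply IsPrincipalIdealRing.of_finite_maximals
  refine (IsDedekindDomain.primesOver_finite (IsLocalRing.maximalIdeal (Rl ℓ))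
    (integralClosure (Rl ℓ) M)).subset ?_
  intro P hP
  have : P.IsMaximal := hP
  exact ⟨hP.isPrime, ⟨(IsLocalRing.eq_maximalIdeal
    (Ideal.isMaximal_comap_of_isIntegral_of_isMaximal P)).symm⟩⟩

end

variable {ℓ : ℕ} [Fact ℓ.Prime] {A : ValuationSubring Qb}

theorem mem_of_isIntegral_Rl (hA : A.LiesOverPrime ℓ) {x : Qb} (hx : IsIntegral (Rl ℓ) x) :
    x ∈ A := by
  obtain ⟨p, hp, hpx⟩ := hx
  let φ : Rl ℓ →+* A := (algebraMap (Rl ℓ) Qb).codRestrict A.toSubring (algebraMap_Rl_mem A hA)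
  have hint : IsIntegral A x := by
    refine ⟨p.map φ, hp.map φ, ?_⟩
    rw [Polynomial.eval₂_map]
    exact hpx
  obtain ⟨y, hy⟩ := (IsIntegrallyClosed.isIntegral_iff (R := A) (K := Qb)).1 hint
  rw [← hy]
  exact y.2

theorem exists_gen_of_finite (hA : A.LiesOverPrime ℓ) {n : ℕ} (a : Fin n → Qb)
    (hne : ∃ j, a j ≠ 0) :
    ∃ c ∈ IntermediateField.adjoin ℚ (Set.range a), c ≠ 0 ∧
      ∀ σ : Gam, (∀ j, σ (a j / c) ∈ A) ∧ ∃ j, a j ≠ 0 ∧ σ (c / a j) ∈ A := by
  set M : IntermediateField ℚ Qb := IntermediateField.adjoin ℚ (Set.range a) with hM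
  have hfd : FiniteDimensional ℚ M :=
    IntermediateField.finiteDimensional_adjoin fun x _ => Algebra.IsIntegral.isIntegral x
  have hfr := isFractionRing_Rl ℓ
  have hpid := isPrincipalIdealRing_integralClosure_Rl ℓ M
  have hfrB : IsFractionRing (integralClosure (Rl ℓ) M) M :=
    integralClosure.isFractionRing_of_finite_extension ℚ M
  let a' : Fin n → M := fun j => ⟨a j, IntermediateField.subset_adjoin _ _ ⟨j, rfl⟩⟩
  obtain ⟨d, hd⟩ := IsLocalization.exist_integer_multiples
    (nonZeroDivisors (integralClosure (Rl ℓ) M)) Finset.univ a'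
  choose b hb using fun j => hd j (Finset.mem_univ j)
  have hd0 : ((d : integralClosure (Rl ℓ) M) : M) ≠ 0 := by
    intro h
    exact nonZeroDivisors.coe_ne_zero d (Subtype.ext h)
  have hb' : ∀ j, ((b j : M) : Qb) = (((d : integralClosure (Rl ℓ) M) : M) : Qb) * a j := by
    intro j
    have := congrArg (fun x : M => (x : Qb)) (hb j)
    simpa [Algebra.smul_def, a'] using this
  obtain ⟨g, hg⟩ := (hpid.principal (Ideal.span (Set.range b))).principal
  have hg' : Ideal.span (Set.range b) = Ideal.span {g} := hg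
  -- `b j = g * e j`
  have hdiv : ∀ j, ∃ e, b j = e * g := by
    intro j
    have : b j ∈ Ideal.span {g} := hg' ▸ Ideal.subset_span ⟨j, rfl⟩
    obtain ⟨e, he⟩ := Ideal.mem_span_singleton'.1 this
    exact ⟨e, he.symm⟩
  choose e he using hdiv
  -- `g = ∑ r j * b j`
  obtain ⟨r, hr⟩ : ∃ r : Fin n → integralClosure (Rl ℓ) M, ∑ j, r j * b j = g := by
    have : g ∈ Ideal.span (Set.range b) := hg' ▸ Ideal.mem_span_singleton_self g
    exact (Ideal.mem_span_range_iff_exists_fun).1 this
  have hd0' : (((d : integralClosure (Rl ℓ) M) : M) : Qb) ≠ 0 := fun h => hd0 (Subtype.ext h)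
  have hg0 : g ≠ 0 := by
    rintro rfl
    obtain ⟨j, hj⟩ := hne
    have h1 := hb' j
    rw [he j, mul_zero] at h1
    exact (mul_ne_zero hd0' hj) h1.symm
  have hg0' : ((g : M) : Qb) ≠ 0 := fun h => hg0 (Subtype.ext (Subtype.ext h))
  have hsum : ∑ j, r j * e j = 1 := by
    apply mul_right_cancel₀ hg0
    rw [Finset.sum_mul, one_mul]
    refine Eq.trans ?_ hr
    exact Finset.sum_congr rfl fun j _ => by rw [he j, mul_assoc]
  have hint : ∀ (x : integralClosure (Rl ℓ) M) (σ : Gam), σ ((x : M) : Qb) ∈ A := fun x σ =>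
    mem_of_isIntegral_Rl hA (by
      have h1 : IsIntegral (Rl ℓ) (x : M) := x.2
      exact h1.map ((σ.toAlgHom.restrictScalars (Rl ℓ)).comp (M.val.restrictScalars (Rl ℓ))))
  set c : Qb := ((g : M) : Qb) / (((d : integralClosure (Rl ℓ) M) : M) : Qb) with hc
  have hc0 : c ≠ 0 := div_ne_zero hg0' hd0'
  have hac : ∀ j, a j / c = ((e j : M) : Qb) := by
    intro j
    have h1 := hb' j
    rw [he j] at h1
    have h2 : (((e j * g : integralClosure (Rl ℓ) M) : M) : Qb) = ((e j : M) : Qb) * ((g : M) : Qb) :=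
      rfl
    rw [h2] at h1
    rw [hc, div_div_eq_mul_div, div_eq_iff hg0', h1, mul_comm]
  refine ⟨c, ?_, hc0, fun σ => ⟨fun j => ?_, ?_⟩⟩
  · exact M.div_mem (g : M).2 ((d : integralClosure (Rl ℓ) M) : M).2
  · rw [hac]; exact hint _ σ
  · by_contra hcon
    push Not at hcon
    have hlt : ∀ j ∈ Finset.univ, A.valuation (σ (((r j : M) : Qb) * ((e j : M) : Qb))) < 1 := by
      intro j _
      rw [map_mul, map_mul]
      have h1 : A.valuation (σ ((r j : M) : Qb)) ≤ 1 := (A.valuation_le_one_iff _).2 (hint _ σ)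
      have h2 : A.valuation (σ ((e j : M) : Qb)) < 1 := by
        by_cases haj : a j = 0
        · rw [← hac, haj, zero_div, map_zero, map_zero]
          exact zero_lt_one
        · have h3 := hcon j haj
          rw [← A.valuation_le_one_iff, not_le] at h3
          have h4 : σ ((e j : M) : Qb) = (σ (c / a j))⁻¹ := by
            rw [← hac, ← map_inv₀, inv_div]
          rw [h4, map_inv₀]
          exact (inv_lt_one₀ (lt_trans zero_lt_one h3)).2 h3
      exact lt_of_le_of_lt (mul_le_of_le_one_left' h1) h2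
    have h5 := Valuation.map_sum_lt A.valuation one_ne_zero hlt
    have h6 : ∑ j, σ (((r j : M) : Qb) * ((e j : M) : Qb)) = 1 := by
      rw [← map_sum]
      have := congrArg (fun x : integralClosure (Rl ℓ) M => ((x : M) : Qb)) hsum
      simp only [AddSubmonoidClass.coe_finsetSum, MulMemClass.coe_mul, OneMemClass.coe_one] at this
      rw [this, map_one]
    rw [h6, map_one] at h5
    exact lt_irrefl _ h5

theorem exists_equivariant_scale (hA : A.LiesOverPrime ℓ) {G : Type*} [Finite G]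
    [MulAction Gam G] {n : ℕ} (lam : Fin n → G → Qb) (hlam : ∀ j, IsEqv (lam j))
    (hne : ∀ y, ∃ j, lam j y ≠ 0) :
    ∃ c : G → Qb, IsEqv c ∧ (∀ y, c y ≠ 0) ∧ (∀ y j, lam j y / c y ∈ A) ∧
      ∀ y, ∃ j, lam j y ≠ 0 ∧ c y / lam j y ∈ A := by
  choose c₀ hc₀mem hc₀ne hc₀ using fun y => exists_gen_of_finite hA (fun j => lam j y) (hne y)
  -- `c₀ z` is fixed by the stabiliser of `z`
  have hfix : ∀ (z : G) (ρ : Gam), ρ • z = z → ρ (c₀ z) = c₀ z := by
    intro z ρ hρ
    have hle : IntermediateField.adjoin ℚ (Set.range fun j => lam j z) ≤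
        IntermediateField.fixedField (MulAction.stabilizer Gam z) := by
      rw [IntermediateField.adjoin_le_iff]
      rintro _ ⟨j, rfl⟩
      rw [SetLike.mem_coe, IntermediateField.mem_fixedField_iff]
      intro f hf
      have hf' : f • z = z := hf
      show f (lam j z) = lam j z
      rw [← hlam j f z, hf']
    exact (IntermediateField.mem_fixedField_iff _ _).1 (hle (hc₀mem z)) ρ hρ
  have hwd : ∀ (z : G) (σ σ' : Gam), σ • z = σ' • z → σ (c₀ z) = σ' (c₀ z) := by
    intro z σ σ' h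
    have h1 : (σ'⁻¹ * σ) • z = z := by rw [mul_smul, h, inv_smul_smul]
    have h2 := hfix z _ h1
    have h3 : σ' ((σ'⁻¹ * σ) (c₀ z)) = σ (c₀ z) := by
      rw [← AlgEquiv.mul_apply, mul_inv_cancel_left]
    rw [← h3, h2]
  let rep : G → G := fun y => (Quotient.mk (MulAction.orbitRel Gam G) y).out
  have hrep : ∀ (σ : Gam) (y : G), rep (σ • y) = rep y := by
    intro σ y
    have : (Quotient.mk (MulAction.orbitRel Gam G) (σ • y)) = Quotient.mk _ y :=
      Quotient.sound (MulAction.orbitRel_apply.2 ⟨σ, rfl⟩)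
    show (Quotient.mk (MulAction.orbitRel Gam G) (σ • y)).out = _
    rw [this]
  have hex : ∀ y, ∃ τ : Gam, τ • rep y = y := by
    intro y
    have h1 : (MulAction.orbitRel Gam G) (rep y) y := Quotient.mk_out (s := MulAction.orbitRel Gam G) y
    have h2 := (MulAction.orbitRel Gam G).symm h1
    exact MulAction.orbitRel_apply.1 h2
  choose τ hτ using hex
  have hl : ∀ j y, lam j y = τ y (lam j (rep y)) := by
    intro j y
    rw [← hlam j, hτ]
  refine ⟨fun y => τ y (c₀ (rep y)), ?_, ?_, ?_, ?_⟩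
  · intro σ y
    show τ (σ • y) (c₀ (rep (σ • y))) = σ (τ y (c₀ (rep y)))
    have h1 := hτ (σ • y)
    rw [hrep] at h1 ⊢
    rw [← AlgEquiv.mul_apply]
    apply hwd
    rw [h1, mul_smul, hτ]
  · intro y
    exact (map_ne_zero _).2 (hc₀ne _)
  · intro y j
    show lam j y / τ y (c₀ (rep y)) ∈ A
    rw [hl j y, ← map_div₀]
    exact (hc₀ (rep y) (τ y)).1 j
  · intro y
    obtain ⟨j, hj, hjA⟩ := (hc₀ (rep y) (τ y)).2
    refine ⟨j, ?_, ?_⟩
    · rw [hl j y]
      exact (map_ne_zero _).2 hj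
    · show τ y (c₀ (rep y)) / lam j y ∈ A
      rw [hl j y, ← map_div₀]
      exact hjA

end Fermat.Agent.S19
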