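import Fermat.Agent.S19.A.Defs

/-!
# S19 / C3 : `intSpan A G` is an `A`-subalgebra of `G → ℚ̄`; unit-valued elements are units

`inv_mem_intSpan`: `t` is a root of `χ = ∏_y (X - t y) ∈ A[X]` (as an element of `G → ℚ̄`), whose
constant term `± ∏ t y` is a unit of `A`; so `t⁻¹ = -c₀⁻¹ (t^(n-1) + c_(n-1) t^(n-2) + ...)`.
-/

set_option autoImplicit false

namespace Fermat.Agent.S19

variable {A : ValuationSubring Qb} {G : Type*} [MulAction Gam G]

theorem mem_intSpan_of_isEqv {φ : G → Qb} (h : IsEqv φ) (hA : ∀ y, φ y ∈ A) :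
    φ ∈ intSpan A G :=
  Submodule.subset_span ⟨h, hA⟩

theorem intSpan_apply_mem {t : G → Qb} (ht : t ∈ intSpan A G) (y : G) : t y ∈ A := by
  induction ht using Submodule.span_induction with
  | mem φ h => exact h.2 y
  | zero => exact A.zero_mem
  | add s t _ _ hs ht => exact A.add_mem _ _ hs ht
  | smul a t _ ht => exact A.mul_mem _ _ a.2 ht

theorem one_mem_intSpan : (1 : G → Qb) ∈ intSpan A G :=
  mem_intSpan_of_isEqv (fun σ _ => (map_one σ).symm) (fun _ => A.one_mem)

theorem smul_mem_intSpan {a : Qb} (ha : a ∈ A) {t : G → Qb} (ht : t ∈ intSpan A G) :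
    (fun y => a * t y) ∈ intSpan A G :=
  (intSpan A G).smul_mem (⟨a, ha⟩ : A) ht

theorem const_mem_intSpan {a : Qb} (ha : a ∈ A) : (fun _ : G => a) ∈ intSpan A G := by
  have := smul_mem_intSpan ha (one_mem_intSpan (A := A) (G := G))
  simpa using this

theorem mul_mem_intSpan {s t : G → Qb} (hs : s ∈ intSpan A G) (ht : t ∈ intSpan A G) :
    s * t ∈ intSpan A G := by
  induction hs using Submodule.span_induction with
  | mem φ hφ =>
    induction ht using Submodule.span_induction with
    | mem ψ hψ =>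
      refine mem_intSpan_of_isEqv (fun σ y => ?_) (fun y => A.mul_mem _ _ (hφ.2 y) (hψ.2 y))
      rw [Pi.mul_apply, Pi.mul_apply, hφ.1, hψ.1, map_mul]
    | zero => rw [mul_zero]; exact Submodule.zero_mem _
    | add s t _ _ hs ht => rw [mul_add]; exact Submodule.add_mem _ hs ht
    | smul a t _ ht =>
      have : φ * (a • t) = a • (φ * t) := by
        funext y
        show φ y * ((a : Qb) * t y) = (a : Qb) * (φ y * t y)
        ring
      rw [this]
      exact Submodule.smul_mem _ a ht
  | zero => rw [zero_mul]; exact Submodule.zero_mem _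
  | add s s' _ _ hs hs' => rw [add_mul]; exact Submodule.add_mem _ hs hs'
  | smul a s _ hs =>
    have : (a • s) * t = a • (s * t) := by
      funext y
      show ((a : Qb) * s y) * t y = (a : Qb) * (s y * t y)
      ring
    rw [this]
    exact Submodule.smul_mem _ a hs

theorem pow_mem_intSpan {t : G → Qb} (ht : t ∈ intSpan A G) (n : ℕ) : t ^ n ∈ intSpan A G := by
  induction n with
  | zero => rw [pow_zero]; exact one_mem_intSpan
  | succ n ih => rw [pow_succ]; exact mul_mem_intSpan ih ht

theorem prod_mem_intSpan {ι : Type*} (s : Finset ι) (t : ι → G → Qb)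
    (ht : ∀ i ∈ s, t i ∈ intSpan A G) : ∏ i ∈ s, t i ∈ intSpan A G := by
  classical
  induction s using Finset.induction_on with
  | empty => rw [Finset.prod_empty]; exact one_mem_intSpan
  | insert a s ha ih =>
    rw [Finset.prod_insert ha]
    exact mul_mem_intSpan (ht a (Finset.mem_insert_self a s))
      (ih fun i hi => ht i (Finset.mem_insert_of_mem hi))

theorem sum_mem_intSpan {ι : Type*} (s : Finset ι) (t : ι → G → Qb)
    (ht : ∀ i ∈ s, t i ∈ intSpan A G) : ∑ i ∈ s, t i ∈ intSpan A G :=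
  Submodule.sum_mem _ ht

/-- polynomials with coefficients in `A` preserve `intSpan`. -/
theorem aeval_mem_intSpan {t : G → Qb} (ht : t ∈ intSpan A G) (r : Polynomial A) :
    (fun y => Polynomial.aeval (t y) r) ∈ intSpan A G := by
  have : (fun y => Polynomial.aeval (t y) r) =
      ∑ i ∈ Finset.range (r.natDegree + 1), r.coeff i • t ^ i := by
    funext y
    rw [Polynomial.aeval_eq_sum_range, Finset.sum_apply]
    rfl
  rw [this]
  exact Submodule.sum_mem _ fun i _ => Submodule.smul_mem _ _ (pow_mem_intSpan ht i)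

open Polynomial in
/-- **UNIT.** -/
theorem inv_mem_intSpan [Finite G] {t : G → Qb} (ht : t ∈ intSpan A G)
    (hu : ∀ y, t y ≠ 0 ∧ (t y)⁻¹ ∈ A) : (fun y => (t y)⁻¹) ∈ intSpan A G := by
  classical
  have := Fintype.ofFinite G
  let τ : G → A := fun y => ⟨t y, intSpan_apply_mem ht y⟩
  let p : A[X] := ∏ y, (X - C (τ y))
  have hroot : ∀ z, aeval (t z) p = 0 := by
    intro z
    rw [map_prod]
    refine Finset.prod_eq_zero (Finset.mem_univ z) ?_
    rw [map_sub, aeval_X, aeval_C]
    exact sub_self _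
  have hc0 : ((p.coeff 0 : A) : Qb) = ∏ y, (-t y) := by
    rw [coeff_zero_eq_eval_zero, eval_prod]
    simp only [eval_sub, eval_X, eval_C, zero_sub]
    show A.subtype (∏ y, -τ y) = _
    rw [map_prod]
    rfl
  set c : Qb := ∏ y, (-t y) with hc
  have hcne : c ≠ 0 := Finset.prod_ne_zero_iff.mpr fun y _ => neg_ne_zero.mpr (hu y).1
  have hcinv : -c⁻¹ ∈ A := by
    refine A.neg_mem _ ?_
    rw [hc, ← Finset.prod_inv_distrib]
    refine Subring.prod_mem A.toSubring fun y _ => ?_
    rw [inv_neg]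
    exact A.neg_mem _ (hu y).2
  have key : (fun y => (t y)⁻¹) = fun y => -c⁻¹ * aeval (t y) (divX p) := by
    funext z
    have h1 : aeval (t z) (divX p * X + C (p.coeff 0)) = 0 := by
      rw [divX_mul_X_add]; exact hroot z
    rw [map_add, map_mul, aeval_X, aeval_C] at h1
    have h2 : algebraMap A Qb (p.coeff 0) = c := hc0
    rw [h2] at h1
    have htz := (hu z).1
    field_simp
    linear_combination h1
  rw [key]
  exact smul_mem_intSpan hcinv (aeval_mem_intSpan ht _)

theorem zpow_mem_intSpan [Finite G] {t : G → Qb} (ht : t ∈ intSpan A G)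
    (hu : ∀ y, t y ≠ 0 ∧ (t y)⁻¹ ∈ A) (n : ℤ) : (fun y => t y ^ n) ∈ intSpan A G := by
  obtain ⟨k, rfl | rfl⟩ := n.eq_nat_or_neg
  · simp only [zpow_natCast]
    exact pow_mem_intSpan ht k
  · simp only [zpow_neg, zpow_natCast, ← inv_pow]
    exact pow_mem_intSpan (inv_mem_intSpan ht hu) k

theorem div_mem_intSpan [Finite G] {s t : G → Qb} (hs : s ∈ intSpan A G) (ht : t ∈ intSpan A G)
    (hu : ∀ y, t y ≠ 0 ∧ (t y)⁻¹ ∈ A) : (fun y => s y / t y) ∈ intSpan A G := by
  simp only [div_eq_mul_inv]
  exact mul_mem_intSpan hs (inv_mem_intSpan ht hu)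

end Fermat.Agent.S19
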