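import Fermat.Agent.S19.C.Ev
import Fermat.Agent.S19.C.Span
import Fermat.Agent.S19.C.Scale

/-!
# S19 / C6 : the canonical equivariant family `y ↦ (R_y, f_y)`

* `Rf y` := the `Pinf`-reduced effective divisor with `bcl Pinf (Rf y) = ι y`
  (`S27.exists_isRed`, unique by `S27.IsRed.eq_of_bcl_eq`; `gal σ` maps reduced divisors to reduced
  divisors because it fixes `Pinf`; so `Rf (σ y) = σ (Rf y)`).
* `N := m * max_y deg (Rf y)`; `u` := rational orthonormal basis of `L(N Pinf)` (`P.on`).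
* `f♮ y` := the function with divisor `m (Rf y - deg (Rf y) Pinf)` whose first non zero coordinate in
  the basis `u` is `1`.  Coordinates `κ j y`.  `σ (f♮ y)` has divisor `m (Rf (σ y) - ..)` and
  coordinates `σ (κ j y)`, so `f♮ (σ y) = σ (f♮ y)` and `κ j` is equivariant.
* `c` := `exists_equivariant_scale` for `κ`; `ff y := (c y)⁻¹ f♮ y`, coordinates
  `lam j y = κ j y / c y ∈ A`, one of them a unit: `ff y ∈ O`, `red (ff y) ≠ 0`
  (`RedPkg.red_ne_zero_of_unit_coeff`).
* for `v` with `r v ≠ r Pinf`: `val v (ff y) = ∑ j, val v (u j) * lam j y`, `val v (u j) ∈ A`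
  (`RedPkg.val_mem`).
-/

set_option autoImplicit false

open AlgebraicCurve

namespace Fermat.Agent.S19

open Fermat.Agent.S27 Fermat.Agent.RED

section Semilinear

variable {K F : Type*} [Field K] [Field F] [Algebra K F]

theorem smul_mem_L_smul (g : SemilinearAut K F) {D : Divisor K F} {f : F}
    (hf : f ∈ riemannRochSpace D) : g • f ∈ riemannRochSpace (g • D) := by
  rw [mem_riemannRochSpace_iff] at hf ⊢
  intro w
  rcases hf (g⁻¹ • w) with h | h
  · left; rw [h, smul_zero]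
  · right
    rw [SemilinearAut.divisor_smul_apply]
    have h1 := SemilinearAut.ord_smul g (g⁻¹ • w) f
    rw [smul_inv_smul] at h1
    rw [h1]
    exact h

theorem divisor_smul_nonneg (g : SemilinearAut K F) {D : Divisor K F} (hD : 0 ≤ D) :
    0 ≤ g • D := by
  intro w
  rw [SemilinearAut.divisor_smul_apply]
  exact hD _

theorem smul_smul_const (g : SemilinearAut K F) (c : K) (f : F) :
    g • (c • f) = SemilinearAut.baseAut g c • (g • f) := by
  rw [Algebra.smul_def, Algebra.smul_def, smul_mul', SemilinearAut.smul_algebraMap]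

variable [IsAlgClosed K] [CharZero K] [IsFF K F]

theorem finrank_L_smul_eq_zero (g : SemilinearAut K F) {D : Divisor K F}
    (h : Module.finrank K (riemannRochSpace D) = 0) :
    Module.finrank K (riemannRochSpace (g • D)) = 0 := by
  by_contra hne
  obtain ⟨f, hf0, hf⟩ := exists_ne_zero_mem_L hne
  have h1 := smul_mem_L_smul g⁻¹ hf
  rw [inv_smul_smul] at h1
  have : Nontrivial (riemannRochSpace D) :=
    ⟨⟨⟨g⁻¹ • f, h1⟩, 0, fun h => by
      have h2 : g⁻¹ • f = 0 := congrArg Subtype.val h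
      exact hf0 (by simpa using h2)⟩⟩
  exact (Module.finrank_pos (R := K) (M := riemannRochSpace D)).ne' h

theorem isRed_smul (g : SemilinearAut K F) {P₀ : Place K F} (hP₀ : g • P₀ = P₀)
    {E : Divisor K F} (hE : IsRed P₀ E) : IsRed P₀ (g • E) := by
  refine ⟨divisor_smul_nonneg g hE.1, ?_⟩
  have := finrank_L_smul_eq_zero g hE.2
  rwa [smul_sub, SemilinearAut.smul_single, hP₀] at this

omit [IsAlgClosed K] [CharZero K] [IsFF K F] in
theorem smul_sub_degree (g : SemilinearAut K F) {P₀ : Place K F} (hP₀ : g • P₀ = P₀)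
    (E : Divisor K F) :
    g • (E - Divisor.degree E • Finsupp.single P₀ (1 : ℤ))
      = g • E - Divisor.degree (g • E) • Finsupp.single P₀ (1 : ℤ) := by
  rw [smul_sub, SemilinearAut.degree_smul, Finsupp.smul_single, SemilinearAut.smul_single, hP₀]

theorem bcl_smul (g : SemilinearAut K F) {P₀ : Place K F} (hP₀ : g • P₀ = P₀)
    (E : Divisor K F) : bcl P₀ (g • E) = g • bcl P₀ E := by
  unfold bcl
  rw [← dcl_smul, smul_sub_degree g hP₀]

omit [IsAlgClosed K] [CharZero K] [IsFF K F] in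
theorem dcl_nsmul₀ {D : Divisor K F} (hD : Divisor.degree D = 0) (n : ℕ) :
    dcl (n • D) = n • dcl D := by
  induction n with
  | zero => simp [dcl_zero]
  | succ n ih =>
    rw [succ_nsmul, succ_nsmul, dcl_add (by rw [map_nsmul, hD, smul_zero]) hD, ih]

theorem val_sum_smul {n : ℕ} (v : Place K F) (α : Fin n → K) (u : Fin n → F)
    (hu : ∀ j, v.adicValuation (u j) ≤ 1) :
    val v (∑ j, α j • u j) = ∑ j, α j * val v (u j) := by
  apply val_unique
  have : ∑ j, α j • u j - algebraMap K F (∑ j, α j * val v (u j))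
      = ∑ j, α j • (u j - algebraMap K F (val v (u j))) := by
    simp only [map_sum, map_mul, Algebra.smul_def, mul_sub, Finset.sum_sub_distrib]
  rw [this]
  refine Valuation.map_sum_lt _ one_ne_zero (fun j _ => ?_)
  rw [Algebra.smul_def, map_mul]
  rcases eq_or_ne (α j) 0 with h | h
  · simp [h]
  · rw [adic_algebraMap v h, one_mul]; exact val_spec v (hu j)

end Semilinear

section NormVec

variable {K : Type*} [Field K] {n : ℕ}

/-- the first non zero coordinate is `1`. -/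
def IsNormVec (κ : Fin n → K) : Prop := ∃ j₁, κ j₁ = 1 ∧ ∀ j < j₁, κ j = 0

theorem exists_isNormVec {κ : Fin n → K} (h : ∃ j, κ j ≠ 0) :
    ∃ c : K, c ≠ 0 ∧ IsNormVec (fun j => c * κ j) := by
  classical
  have hne : (Finset.univ.filter (fun j => κ j ≠ 0)).Nonempty := by
    obtain ⟨j, hj⟩ := h
    exact ⟨j, by simp [hj]⟩
  set j₁ := (Finset.univ.filter (fun j => κ j ≠ 0)).min' hne with hj₁
  have h1 : κ j₁ ≠ 0 := (Finset.mem_filter.1 (Finset.min'_mem _ hne)).2
  refine ⟨(κ j₁)⁻¹, inv_ne_zero h1, j₁, inv_mul_cancel₀ h1, fun j hj => ?_⟩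
  by_contra hne'
  have h2 : κ j ≠ 0 := fun h0 => hne' (by beta_reduce; rw [h0, mul_zero])
  have := Finset.min'_le (Finset.univ.filter (fun j => κ j ≠ 0)) j (by simp [h2])
  exact absurd hj (not_lt.2 this)

theorem IsNormVec.eq_one {κ : Fin n → K} {c : K} (h : IsNormVec κ)
    (h' : IsNormVec (fun j => c * κ j)) : c = 1 := by
  obtain ⟨j₁, e1, z1⟩ := h
  obtain ⟨j₂, e2, z2⟩ := h'
  beta_reduce at e2 z2
  have h12 : ¬ j₂ < j₁ := fun hlt => by
    rw [z1 j₂ hlt, mul_zero] at e2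
    exact zero_ne_one e2
  have hc : c ≠ 0 := by
    rintro rfl
    rw [zero_mul] at e2
    exact zero_ne_one e2
  have h21 : ¬ j₁ < j₂ := fun hlt => by
    have := z2 j₁ hlt
    rw [e1, mul_one] at this
    exact hc this
  have : j₁ = j₂ := le_antisymm (not_lt.1 h12) (not_lt.1 h21)
  subst this
  rw [e1, mul_one] at e2
  exact e2

theorem IsNormVec.map {κ : Fin n → K} (h : IsNormVec κ) (σ : K →+* K) :
    IsNormVec (fun j => σ (κ j)) := by
  obtain ⟨j₁, e1, z1⟩ := h
  exact ⟨j₁, by beta_reduce; rw [e1, map_one], fun j hj => by beta_reduce; rw [z1 j hj, map_zero]⟩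

theorem IsNormVec.exists_ne_zero {κ : Fin n → K} (h : IsNormVec κ) : ∃ j, κ j ≠ 0 := by
  obtain ⟨j₁, e1, -⟩ := h
  exact ⟨j₁, by rw [e1]; exact one_ne_zero⟩

end NormVec

variable {ℓ : ℕ} [Fact ℓ.Prime] {A : ValuationSubring Qb} {F : Type} [Field F] [Algebra Qb F]
  [IsFF Qb F] {gal : Gam →* SemilinearAut Qb F} {k Fb : Type} [Field k] [Field Fb] [Algebra k Fb]
  (P : RedPkg A F gal k Fb)

/-- **C6a.** the equivariant family of reduced divisors. -/
theorem RedPkg.exists_reduced_family {G : Type*} [MulAction Gam G] (ι : G → Pic0 Qb F)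
    (hι : ∀ (σ : Gam) y, ι (σ • y) = gal σ • ι y) :
    ∃ Rf : G → Divisor Qb F, (∀ y, 0 ≤ Rf y) ∧ (∀ (σ : Gam) y, Rf (σ • y) = gal σ • Rf y) ∧
      ∀ y, bcl P.Pinf (Rf y) = ι y := by
  choose Rf h1 h2 using fun y => exists_isRed P.Pinf (ι y)
  refine ⟨Rf, fun y => (h1 y).1, fun σ y => ?_, h2⟩
  refine (h1 (σ • y)).eq_of_bcl_eq (isRed_smul (gal σ) (P.gal_Pinf σ) (h1 y)) ?_
  rw [h2, bcl_smul (gal σ) (P.gal_Pinf σ), h2, hι]


/-- **C6.** -/
theorem RedPkg.exists_family (hA : A.LiesOverPrime ℓ) {G : Type*} [Finite G] [MulAction Gam G]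
    (ι : G → Pic0 Qb F) (hι : ∀ (σ : Gam) y, ι (σ • y) = gal σ • ι y) {m : ℕ}
    (hm : ∀ y, m • ι y = 0) :
    ∃ (Rf : G → Divisor Qb F) (ff : G → F),
      (∀ y, 0 ≤ Rf y) ∧ (∀ (σ : Gam) y, Rf (σ • y) = gal σ • Rf y) ∧
      (∀ y, bcl P.Pinf (Rf y) = ι y) ∧ (∀ y, ff y ≠ 0) ∧
      (∀ y, divOf (K := Qb) (ff y) =
        m • (Rf y - Divisor.degree (Rf y) • Finsupp.single P.Pinf 1)) ∧
      (∀ y, ∃ h : ff y ∈ P.R.O, P.R.red ⟨ff y, h⟩ ≠ 0) ∧
      ∀ v : Place Qb F, P.r v ≠ P.r P.Pinf → (fun y => val v (ff y)) ∈ intSpan A G := by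
  classical
  have := Fintype.ofFinite G
  obtain ⟨Rf, hR0, hReq, hRι⟩ := P.exists_reduced_family ι hι
  set d : G → ℤ := fun y => Divisor.degree (Rf y) with hd
  have hd0 : ∀ y, 0 ≤ d y := fun y => FFBase.degree_nonneg (hR0 y)
  set Dv : G → Divisor Qb F := fun y => Rf y - d y • Finsupp.single P.Pinf 1 with hDv
  have hDdeg : ∀ y, Divisor.degree (Dv y) = 0 := fun y => degree_sub_smul _ _
  have hDι : ∀ y, dcl (Dv y) = ι y := hRι
  have hDeq : ∀ (σ : Gam) y, Dv (σ • y) = gal σ • Dv y := by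
    intro σ y
    rw [hDv]
    beta_reduce
    rw [hd]
    beta_reduce
    rw [smul_sub_degree (gal σ) (P.gal_Pinf σ), hReq]
  have hprin : ∀ y, ∃ f : F, f ≠ 0 ∧ divOf (K := Qb) f = m • Dv y := by
    intro y
    have h0 : Divisor.degree (m • Dv y) = 0 := by rw [map_nsmul, hDdeg, smul_zero]
    have h1 : dcl (m • Dv y) = 0 := by rw [dcl_nsmul₀ (hDdeg y), hDι, hm]
    rw [dcl_eq_zero_iff h0] at h1
    obtain ⟨f, hf, h⟩ := mem_principal_iff.1 h1
    exact ⟨f, hf, h.symm⟩
  set N : ℤ := m * ∑ y, d y with hN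
  set E : Divisor Qb F := Finsupp.single P.Pinf N with hE
  have hNy : ∀ y, (m : ℤ) * d y ≤ N := fun y =>
    mul_le_mul_of_nonneg_left (Finset.single_le_sum (fun z _ => hd0 z) (Finset.mem_univ y))
      (Int.natCast_nonneg m)
  have hN0 : 0 ≤ N := mul_nonneg (Int.natCast_nonneg m) (Finset.sum_nonneg fun z _ => hd0 z)
  have hE0 : 0 ≤ E := by
    intro w
    by_cases hw : w = P.Pinf
    · subst hw; rw [hE, Finsupp.single_eq_same]; exact hN0
    · rw [hE, Finsupp.single_eq_of_ne hw]; rfl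
  have hEgal : ∀ σ : Gam, gal σ • E = E := fun σ => by
    rw [hE, SemilinearAut.smul_single, P.gal_Pinf]
  obtain ⟨n, u, hu1, hu2, hu3, hli, hon⟩ := P.on E hEgal
  -- `u` spans `L(E)`
  have hspan : ∀ a ∈ LS E, ∃ κ : Fin n → Qb, a = ∑ j, κ j • u j := by
    intro a ha
    rcases eq_or_ne a 0 with rfl | ha0
    · exact ⟨0, by simp⟩
    obtain ⟨c, hc, hred⟩ := P.R.exists_scale a ha0
    have hc0 : c ≠ 0 := by
      rintro rfl
      apply hred
      have : (⟨algebraMap Qb F 0 * a, hc⟩ : P.R.O) = 0 := Subtype.ext (by simp)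
      rw [this, map_zero]
    obtain ⟨α, hα⟩ := hon (algebraMap Qb F c * a)
      (by rw [← Algebra.smul_def]; exact (LS E).smul_mem c ha) hc
    refine ⟨fun j => c⁻¹ * ((α j : A) : Qb), ?_⟩
    have h1 : a = c⁻¹ • (algebraMap Qb F c * a) := by
      rw [← Algebra.smul_def, smul_smul, inv_mul_cancel₀ hc0, one_smul]
    rw [h1, hα, Finset.smul_sum]
    exact Finset.sum_congr rfl fun j _ => by rw [smul_smul]
  have hmemLS : ∀ y (f : F), f ≠ 0 → divOf (K := Qb) f = m • Dv y → f ∈ LS E := by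
    intro y f hf hdiv
    rw [mem_LS_of_ne_zero hf]
    intro w
    rw [← divOf_apply (K := Qb) f w, hdiv, hDv, hE]
    simp only [Finsupp.smul_apply, Finsupp.sub_apply, nsmul_eq_mul, smul_eq_mul]
    have h1 := hR0 y w
    have h2 : (0 : ℤ) ≤ m := Int.natCast_nonneg m
    have h3 := hNy y
    rw [Finsupp.zero_apply] at h1
    by_cases hw : w = P.Pinf
    · subst hw
      rw [Finsupp.single_eq_same, Finsupp.single_eq_same]
      nlinarith
    · rw [Finsupp.single_eq_of_ne hw, Finsupp.single_eq_of_ne hw]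
      nlinarith
  -- normalised functions
  have hex : ∀ y, ∃ (f : F) (κ : Fin n → Qb), f ≠ 0 ∧ divOf (K := Qb) f = m • Dv y ∧
      f = ∑ j, κ j • u j ∧ IsNormVec κ := by
    intro y
    obtain ⟨f, hf, hdiv⟩ := hprin y
    obtain ⟨κ, hκ⟩ := hspan f (hmemLS y f hf hdiv)
    have hne : ∃ j, κ j ≠ 0 := by
      by_contra hcon
      push Not at hcon
      apply hf
      rw [hκ]
      exact Finset.sum_eq_zero fun j _ => by rw [hcon j, zero_smul]
    obtain ⟨c, hc, hnorm⟩ := exists_isNormVec hne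
    refine ⟨c • f, fun j => c * κ j, smul_ne_zero hc hf, ?_, ?_, hnorm⟩
    · rw [Algebra.smul_def, divOf_mul (by simpa using hc) hf, divOf_algebraMap, zero_add, hdiv]
    · rw [hκ, Finset.smul_sum]
      exact Finset.sum_congr rfl fun j _ => by rw [smul_smul]
  choose f κ hf0 hfdiv hfκ hκn using hex
  have huniq : ∀ y (f' : F) (κ' : Fin n → Qb), f' ≠ 0 → divOf (K := Qb) f' = m • Dv y →
      f' = ∑ j, κ' j • u j → IsNormVec κ' → κ' = κ y := by
    intro y f' κ' hf' hdiv' hκ' hn'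
    obtain ⟨c, hc, hcf⟩ := exists_const_mul_of_divOf_eq (K := Qb) (hf0 y) hf'
      ((hfdiv y).trans hdiv'.symm)
    have h1 : ∑ j, κ' j • u j = ∑ j, (c * κ y j) • u j := by
      rw [← hκ', hcf, ← Algebra.smul_def, hfκ y, Finset.smul_sum]
      exact Finset.sum_congr rfl fun j _ => by rw [smul_smul]
    have h2 : κ' = fun j => c * κ y j := by
      have h3 : ∑ j, (κ' j - c * κ y j) • u j = 0 := by
        simp only [sub_smul, Finset.sum_sub_distrib, h1, sub_self]
      have h4 := Fintype.linearIndependent_iff.1 hli _ h3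
      funext j
      exact sub_eq_zero.1 (h4 j)
    have h5 : c = 1 := (hκn y).eq_one (h2 ▸ hn')
    rw [h2, h5]
    funext j
    rw [one_mul]
  have hκeq : ∀ (σ : Gam) y j, κ (σ • y) j = σ (κ y j) := by
    intro σ y j
    have h1 := huniq (σ • y) (gal σ • f y) (fun j => σ (κ y j))
      (by simpa using hf0 y)
      (by rw [divOf_smul, hfdiv, hDeq, smul_comm])
      (by
        conv_lhs => rw [hfκ y]
        rw [Finset.smul_sum]
        exact Finset.sum_congr rfl fun j _ => by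
          rw [smul_smul_const, P.baseAut_gal, hu3])
      ((hκn y).map (σ : Qb →+* Qb))
    exact (congrFun h1 j).symm
  obtain ⟨c, hceq, hc0, hcA, hcU⟩ := exists_equivariant_scale hA (fun j y => κ y j)
    (fun j σ y => hκeq σ y j) (fun y => (hκn y).exists_ne_zero)
  have hffκ : ∀ y, (c y)⁻¹ • f y = ∑ j, (κ y j / c y) • u j := by
    intro y
    conv_lhs => rw [hfκ y]
    rw [Finset.smul_sum]
    exact Finset.sum_congr rfl fun j _ => by rw [smul_smul, div_eq_inv_mul]
  refine ⟨Rf, fun y => (c y)⁻¹ • f y, hR0, hReq, hRι,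
    fun y => smul_ne_zero (inv_ne_zero (hc0 y)) (hf0 y), fun y => ?_, fun y => ?_, fun v hv => ?_⟩
  · beta_reduce
    rw [Algebra.smul_def, divOf_mul (by simpa using hc0 y) (hf0 y), divOf_algebraMap, zero_add,
      hfdiv]
  · obtain ⟨j₀, hj1, hj2⟩ := hcU y
    have := P.red_ne_zero_of_unit_coeff hu1 hu2 hli hon (fun j => κ y j / c y) (hcA y) j₀
      ⟨div_ne_zero hj1 (hc0 y), by rw [inv_div]; exact hj2⟩
    simp only [hffκ y]
    exact this
  · have hvP : v ≠ P.Pinf := fun h => hv (by rw [h])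
    have hsupp : ∀ w ∈ E.support, w = P.Pinf := fun w hw => by
      have := Finsupp.support_single_subset hw
      simpa using this
    have hreg : ∀ j, v.adicValuation (u j) ≤ 1 := fun j =>
      adic_le_one_of_mem_LS (hu1 j) (fun h => hvP (hsupp v h))
    have hvalA : ∀ j, val v (u j) ∈ A := fun j =>
      P.val_mem (hu2 j) hE0 (hu1 j) (fun w hw => by rw [hsupp w hw]; exact hv.symm)
    have hfun : (fun y => val v ((c y)⁻¹ • f y))
        = ∑ j, (fun y => val v (u j) * (κ y j / c y)) := by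
      funext y
      rw [hffκ y, val_sum_smul v _ u hreg, Finset.sum_apply]
      exact Finset.sum_congr rfl fun j _ => mul_comm _ _
    rw [hfun]
    refine sum_mem_intSpan _ _ (fun j _ => smul_mem_intSpan (hvalA j) ?_)
    refine mem_intSpan_of_isEqv (fun σ y => ?_) (fun y => hcA y j)
    rw [hκeq, hceq, map_div₀]

end Fermat.Agent.S19
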