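import Fermat.Agent.S19.A.Defs
import Fermat.Agent.S19.B.Pairing
import Fermat.Agent.S27.MinRep
import Fermat.Agent.RED.Deuring.Basic

/-!
# S19 / part C : integrality of the Weil pairing.  The abstract reduction package

`F / ℚ̄` a function field with a semilinear action `gal` of `Gam`, `A` a valuation ring of `ℚ̄`,
`R : RED.RedData ℚ̄ F k Fb` a constant reduction ("Gauss valuation"), `r` the reduction of places.
All fields of `RedPkg` are provided for the modular function fields by part M (from RED).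
-/

set_option autoImplicit false

open AlgebraicCurve

namespace Fermat.Agent.S19

open Fermat.Agent.S27 Fermat.Agent.RED

/-- the reduction package used by part C. -/
structure RedPkg (A : ValuationSubring Qb) (F : Type) [Field F] [Algebra Qb F]
    (gal : Gam →* SemilinearAut Qb F) (k Fb : Type) [Field k] [Field Fb] [Algebra k Fb] where
  /-- the Gauss valuation ring and the reduction map -/
  R : RedData Qb F k Fb
  /-- the reduction of places -/
  r : Place Qb F → Place k Fb
  /-- a bound for "large degree" -/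
  c₀ : ℤ
  /-- a rational place -/
  Pinf : Place Qb F
  baseAut_gal : ∀ (σ : Gam) (a : Qb), SemilinearAut.baseAut (gal σ) a = σ a
  mem_O_iff : ∀ c : Qb, algebraMap Qb F c ∈ R.O ↔ c ∈ A
  /-- (P1) `r_* div x = div (red x)` -/
  P1 : ∀ (x : R.O), R.red x ≠ 0 → ∀ D : Divisor Qb F, (∀ v : Place Qb F, D v = v.ord (x : F)) →
    ∀ Q : Place k Fb, (D.mapDomain r) Q = Q.ord (R.red x)
  /-- generic sections: the reduction of `L(D)` has no base point -/
  generic : ∀ D : Divisor Qb F, c₀ ≤ Divisor.degree D → ∀ S : Finset (Place k Fb),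
    ∃ x : R.O, (x : F) ∈ LS D ∧ R.red x ≠ 0 ∧ ∀ Q ∈ S, Q.ord (R.red x) = -((D.mapDomain r) Q)
  /-- rational orthonormal bases of `L(E)`, `E` rational -/
  on : ∀ E : Divisor Qb F, (∀ σ : Gam, gal σ • E = E) →
    ∃ (n : ℕ) (u : Fin n → F), (∀ j, u j ∈ LS E) ∧ (∀ j, u j ∈ R.O) ∧
      (∀ (σ : Gam) j, gal σ • u j = u j) ∧ LinearIndependent Qb u ∧
      ∀ a ∈ LS E, a ∈ R.O → ∃ α : Fin n → A, a = ∑ j, ((α j : A) : Qb) • u j
  /-- rational effective divisors of large degree whose reduction avoids a finite set -/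
  ratE : ∀ (S : Finset (Place k Fb)) (n : ℤ), ∃ E : Divisor Qb F, 0 ≤ E ∧ n ≤ Divisor.degree E ∧
    (∀ σ : Gam, gal σ • E = E) ∧ ∀ v ∈ E.support, r v ∉ S
  gal_Pinf : ∀ σ : Gam, gal σ • Pinf = Pinf

end Fermat.Agent.S19
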